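/-
S18lib / G / Compare  (helper5)

Abstract end-game of the genus equality `G.exists_genus`, over a reduction datum `D`:

* `exists_genus_of_tame`      : the tame branches (`ℓ ≥ 5` with `y = j`, `S = {0, 1728}`): genus
  equality from `RRlat.genus_le` (`g_k ≤ g`) and `Tame.genus_le_of_tame` (`g ≤ g_k`);
* `genus_le_of_mapDomain_le`  : the wild variant (`ℓ = 2, 3`): Riemann–Hurwitz on both sides with
  per-place different exponents `d₀ : Place L F →₀ ℕ`, `d_k : Place k Fk →₀ ℕ` and the local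
  inequalities `∑_{P ↦ Q} d₀ P ≤ d_k Q` give `g ≤ g_k`;
* `exists_genus_of_mapDomain_le` : genus equality from these.
-/
import Mathlib
import Fermat.Agent.S18lib.Tame.Count
import Fermat.Agent.S18lib.RRlat.Lattice

set_option autoImplicit false

noncomputable section

namespace Fermat.Agent.S18lib.G

open AlgebraicCurve

variable {L : Type*} [Field L] {A : ValuationSubring L}
variable {F : Type*} [Field F] [Algebra L F]
variable {Fk : Type*} [Field Fk] [Algebra (IsLocalRing.ResidueField A) Fk]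

local notation "k" => IsLocalRing.ResidueField A

/-- **Genus equality, tame branches.** -/
theorem exists_genus_of_tame (D : RedDatum A F Fk) (hD : D.HasOrthonormalBases) {g gk : ℕ}
    (hF : IsCurveOfGenus L F g) (hFk : IsCurveOfGenus k Fk gk)
    {y : F} (hyO : y ∈ D.O)
    (hpres :
      letI := hF.hasPrincipalDivisors
      letI := hFk.hasPrincipalDivisors
      Divisor.degree (Tame.poleDiv (K := L) y) =
        Divisor.degree (Tame.poleDiv (K := k) (D.redF y)))
    (hnc : ∀ c : A, D.redF y ≠ algebraMap k Fk (IsLocalRing.residue A c))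
    (S : Finset A) (hinj : Set.InjOn (IsLocalRing.residue A) (S : Set A)) {n : ℕ}
    (h0 : 2 * (g : ℤ) - 2 ≤
      (∑ a ∈ S, ((n : ℤ) - Nat.card (Tame.zerosOf (K := L) (y - algebraMap L F ((a : A) : L)))))
        + ((n : ℤ) - Nat.card (Tame.polesOf (K := L) y)) - 2 * (n : ℤ))
    (hk : Tame.RHLower k (D.redF y) n gk) :
    ∃ g' : ℕ, IsCurveOfGenus L F g' ∧ IsCurveOfGenus k Fk g' := by
  letI := hF.hasPrincipalDivisors
  letI := hFk.hasPrincipalDivisors
  have h1 : gk ≤ g := RRlat.genus_le D hD hF hFk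
  have hdeg : ∀ Q : Place k Fk, 0 < Q.deg := fun Q => by rw [hFk.deg_eq_one]; exact one_pos
  have h2 : g ≤ gk := Tame.genus_le_of_tame D hdeg hyO hpres hnc S hinj h0 hk
  have : g = gk := le_antisymm h2 h1
  subst this
  exact ⟨g, hF, hFk⟩

/-- total of an `ℕ`-valued finitely supported function -/
def total {α : Type*} (d : α →₀ ℕ) : ℕ := d.sum fun _ m => m

theorem total_mapDomain {α β : Type*} (f : α → β) (d : α →₀ ℕ) :
    total (Finsupp.mapDomain f d) = total d := by
  unfold total
  rw [Finsupp.sum_mapDomain_index (fun _ => rfl) (fun _ _ _ => rfl)]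

theorem total_le_total {α : Type*} {d d' : α →₀ ℕ} (h : ∀ a, d a ≤ d' a) : total d ≤ total d' := by
  classical
  unfold total Finsupp.sum
  have hsub : d.support ⊆ d'.support := by
    intro a ha
    rw [Finsupp.mem_support_iff] at ha ⊢
    have := h a
    omega
  calc ∑ a ∈ d.support, d a ≤ ∑ a ∈ d.support, d' a := Finset.sum_le_sum fun a _ => h a
    _ ≤ ∑ a ∈ d'.support, d' a := Finset.sum_le_sum_of_subset hsub

/-- **Wild variant of the comparison**: Riemann–Hurwitz with per-place different exponents on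
both sides and the local inequalities `∑_{P ↦ Q} d₀ P ≤ d_k Q`. -/
theorem genus_le_of_mapDomain_le (r : Place L F → Place k Fk) {n g gk : ℕ}
    (d0 : Place L F →₀ ℕ) (dk : Place k Fk →₀ ℕ)
    (h0 : 2 * (g : ℤ) - 2 ≤ (total d0 : ℤ) - 2 * (n : ℤ))
    (hk : (total dk : ℤ) - 2 * (n : ℤ) ≤ 2 * (gk : ℤ) - 2)
    (hle : ∀ Q, Finsupp.mapDomain r d0 Q ≤ dk Q) : g ≤ gk := by
  have h1 : total d0 ≤ total dk := by
    rw [← total_mapDomain r d0]
    exact total_le_total hle
  have h2 : (total d0 : ℤ) ≤ total dk := by exact_mod_cast h1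
  omega

/-- **Genus equality, wild branches.** -/
theorem exists_genus_of_mapDomain_le (D : RedDatum A F Fk) (hD : D.HasOrthonormalBases)
    {g gk n : ℕ} (hF : IsCurveOfGenus L F g) (hFk : IsCurveOfGenus k Fk gk)
    (d0 : Place L F →₀ ℕ) (dk : Place k Fk →₀ ℕ)
    (h0 : 2 * (g : ℤ) - 2 ≤ (total d0 : ℤ) - 2 * (n : ℤ))
    (hk : (total dk : ℤ) - 2 * (n : ℤ) ≤ 2 * (gk : ℤ) - 2)
    (hle : ∀ Q, Finsupp.mapDomain D.r d0 Q ≤ dk Q) :
    ∃ g' : ℕ, IsCurveOfGenus L F g' ∧ IsCurveOfGenus k Fk g' := by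
  have h1 : gk ≤ g := RRlat.genus_le D hD hF hFk
  have h2 : g ≤ gk := genus_le_of_mapDomain_le D.r d0 dk h0 hk hle
  have : g = gk := le_antisymm h2 h1
  subst this
  exact ⟨g, hF, hFk⟩

end Fermat.Agent.S18lib.G
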