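/-
S18lib / G / DiffDiv  (helper5)

The finite part of the different as a divisor on the Prelude places, in the (RRgen) variable block
(`K` algebraically closed, any characteristic, `F` finite separable over `RatFunc K`, abstract
Dedekind charts `B`, `Binf`), `x` the image of `X`:

* `diffFin K F B : Place K F →₀ ℕ`, with `diffFin (placeFin Q) = count Q (nF (Diff B / K[X]))`
  and `diffFin v = 0` at the poles of `x`;
* `total_diffFin : total (diffFin K F B) = card (nF (differentIdeal K[X] B))`;
* `ord_sub_one_le_diffFin` : `e_P - 1 ≤ diffFin P` at a zero `P` of `x - a` (any characteristic);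
* `total_diffFin_add_le` : from the Riemann–Hurwitz formula of (RRgen),
  `total diffFin + (n - #poles x) - 2n ≤ 2g - 2`.
These are the inputs `d0`, `hd0` (on the characteristic-0 side) and `dk`, `hk` (on the
characteristic-`ℓ` side) of `G.genus_le_of_wild`.
-/
import Mathlib
import Fermat.Agent.S18lib.G.Compare
import Fermat.Agent.S18lib.RRgen.Main
import Fermat.Agent.S18lib.RHCount.RRgenSetting

set_option autoImplicit false
set_option linter.style.haveILetI false
set_option linter.unusedSectionVars false

noncomputable section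

namespace Fermat.Agent.S18lib.G

open Polynomial IsDedekindDomain AlgebraicCurve UniqueFactorizationMonoid Module
open Fermat.Agent.ProgramR Fermat.Agent.ProgramR.RR Fermat.Agent.S18lib.RHCount

attribute [local instance] FractionRing.liftAlgebra FractionRing.isScalarTower_liftAlgebra

variable (K : Type*) [Field K] [IsAlgClosed K]
  (F : Type*) [Field F] [Algebra (RatFunc K) F] [Algebra K F] [IsScalarTower K (RatFunc K) F]
  [FiniteDimensional (RatFunc K) F] [Algebra.IsSeparable (RatFunc K) F]
  (B : Type*) [CommRing B] [IsDedekindDomain B] [Algebra K[X] B] [Module.Finite K[X] B]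
  [IsTorsionFree K[X] B] [Algebra B F] [IsFractionRing B F] [Algebra K[X] F]
  [IsScalarTower K[X] (RatFunc K) F] [IsScalarTower K[X] B F]
  [Algebra K B] [IsScalarTower K B F]
  (Binf : Type*) [CommRing Binf] [IsDedekindDomain Binf] [Algebra (Ainf K) Binf]
  [Module.Finite (Ainf K) Binf] [IsTorsionFree (Ainf K) Binf] [Algebra Binf F]
  [IsFractionRing Binf F] [Algebra (Ainf K) F] [IsScalarTower (Ainf K) (RatFunc K) F]
  [IsScalarTower (Ainf K) Binf F]
  [Algebra K Binf] [IsScalarTower K Binf F]

open Classical in
/-- the different exponent of the finite chart at a place (`0` at the poles of `x`) -/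
def diffFinFun (v : Place K F) : ℕ :=
  if h : ∃ Q : HeightOneSpectrum B, RRgen.placeFin K F B Q = v then
    Multiset.count (Classical.choose h).asIdeal (normalizedFactors (differentIdeal K[X] B))
  else 0

theorem diffFinFun_placeFin (Q : HeightOneSpectrum B) :
    diffFinFun K F B (RRgen.placeFin K F B Q) =
      Multiset.count Q.asIdeal (normalizedFactors (differentIdeal K[X] B)) := by
  classical
  have h : ∃ Q' : HeightOneSpectrum B, RRgen.placeFin K F B Q' = RRgen.placeFin K F B Q := ⟨Q, rfl⟩
  rw [diffFinFun, dif_pos h]
  have := RRgen.placeFin_injective K F B (Classical.choose_spec h)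
  rw [this]

theorem diffFinFun_of_not_mem_range {v : Place K F}
    (hv : v ∉ Set.range (RRgen.placeFin K F B)) : diffFinFun K F B v = 0 := by
  classical
  rw [diffFinFun, dif_neg]
  rintro ⟨Q, hQ⟩
  exact hv ⟨Q, hQ⟩

theorem finite_support_diffFinFun : (Function.support (diffFinFun K F B)).Finite := by
  classical
  have hfin : {Q : HeightOneSpectrum B |
      Q.asIdeal ∈ (normalizedFactors (differentIdeal K[X] B)).toFinset}.Finite := by
    refine Set.Finite.of_finite_image (f := HeightOneSpectrum.asIdeal) ?_
      (fun Q _ Q' _ h => HeightOneSpectrum.ext h)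
    refine Set.Finite.subset (Finset.finite_toSet
      (normalizedFactors (differentIdeal K[X] B)).toFinset) ?_
    rintro _ ⟨Q, hQ, rfl⟩
    exact hQ
  refine Set.Finite.subset (hfin.image (RRgen.placeFin K F B)) ?_
  intro v hv
  rw [Function.mem_support] at hv
  by_cases hr : v ∈ Set.range (RRgen.placeFin K F B)
  · obtain ⟨Q, rfl⟩ := hr
    rw [diffFinFun_placeFin] at hv
    refine ⟨Q, ?_, rfl⟩
    rw [Set.mem_ofPred_eq, Multiset.mem_toFinset]
    exact Multiset.count_ne_zero.mp hv
  · exact absurd (diffFinFun_of_not_mem_range K F B hr) hv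

/-- **the finite part of the different as a divisor** -/
def diffFin : Place K F →₀ ℕ :=
  Finsupp.ofSupportFinite (diffFinFun K F B) (finite_support_diffFinFun K F B)

theorem diffFin_apply (v : Place K F) : diffFin K F B v = diffFinFun K F B v := rfl

@[simp] theorem diffFin_placeFin (Q : HeightOneSpectrum B) :
    diffFin K F B (RRgen.placeFin K F B Q) =
      Multiset.count Q.asIdeal (normalizedFactors (differentIdeal K[X] B)) :=
  diffFinFun_placeFin K F B Q

theorem diffFin_of_not_mem_range {v : Place K F}
    (hv : v ∉ Set.range (RRgen.placeFin K F B)) : diffFin K F B v = 0 :=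
  diffFinFun_of_not_mem_range K F B hv

/-- `diffFin` vanishes at the poles of `x`. -/
theorem diffFin_of_ord_neg {v : Place K F} (hv : v.ord (algebraMap (RatFunc K) F RatFunc.X) < 0) :
    diffFin K F B v = 0 := by
  refine diffFin_of_not_mem_range K F B ?_
  rw [RRgen.range_placeFin]
  intro hmem
  have h0 : 0 ≤ v.ord (RRgen.xF K F) := (FF.mem_iff_ord_nonneg v _).mp hmem
  exact absurd hv (not_lt.mpr h0)

/-- **`total diffFin = deg Diff_fin`** -/
theorem total_diffFin :
    total (diffFin K F B) = Multiset.card (normalizedFactors (differentIdeal K[X] B)) := by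
  classical
  rw [RRgen.card_normalizedFactors_eq_finsum]
  have h1 : total (diffFin K F B) = ∑ᶠ v : Place K F, diffFinFun K F B v := by
    unfold total Finsupp.sum
    rw [finsum_eq_sum_of_support_subset]
    · rfl
    · intro v hv
      rw [Finset.mem_coe, Finsupp.mem_support_iff]
      exact hv
  rw [h1, ← finsum_mem_univ,
    finsum_mem_inter_support_eq' (diffFinFun K F B) Set.univ (Set.range (RRgen.placeFin K F B))
      (fun v hv => ⟨fun _ => by
        by_contra hr
        exact hv (diffFinFun_of_not_mem_range K F B hr), fun _ => Set.mem_univ _⟩),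
    finsum_mem_range (RRgen.placeFin_injective K F B)]
  exact finsum_congr fun Q => diffFinFun_placeFin K F B Q

/-- **`e_P - 1 ≤ d_P`** at a zero of `x - a`, in any characteristic. -/
theorem ord_sub_one_le_diffFin (a : K) (P : Place K F)
    (hP : 0 < P.ord (algebraMap (RatFunc K) F RatFunc.X - algebraMap K F a)) :
    P.ord (algebraMap (RatFunc K) F RatFunc.X - algebraMap K F a) - 1 ≤ (diffFin K F B P : ℤ) := by
  classical
  haveI := isScalarTower_const_poly K F B
  haveI := isSeparable_chart_fin K F B
  have hxx : xOf K B F = algebraMap (RatFunc K) F RatFunc.X := xOf_eq_xInf K F B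
  -- `P` is a place of the finite chart
  have hxP : RRgen.xF K F ∈ P.toValuationSubring := by
    have h1 : algebraMap (RatFunc K) F RatFunc.X - algebraMap K F a ∈ P.toValuationSubring :=
      (FF.mem_iff_ord_nonneg P _).mpr hP.le
    have h2 := P.toValuationSubring.add_mem _ _ h1 (P.algebraMap_mem' a)
    rwa [sub_add_cancel] at h2
  have hr : P ∈ Set.range (RRgen.placeFin K F B) := by
    rw [RRgen.range_placeFin]; exact hxP
  obtain ⟨Q, rfl⟩ := hr
  have hX0 : algebraMap K[X] B (X - C a) ≠ 0 := algebraMap_X_sub_C_ne_zero' K B a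
  have hQ : algebraMap K[X] B (X - C a) ∈ Q.asIdeal := by
    rw [← FF.ord_algebraMap_pos_iff (K := K) (F := F) Q _ hX0, algebraMap_X_sub_C_eq, hxx]
    exact hP
  have he : (RRgen.placeFin K F B Q).ord
      (algebraMap (RatFunc K) F RatFunc.X - algebraMap K F a) =
      (Q.asIdeal.ramificationIdx K[X] : ℤ) := by
    rw [← hxx]
    exact ord_eq_ramificationIdx' (K := K) (F := F) Q a hQ
  rw [he, diffFin_placeFin]
  haveI : (Ideal.span {(X - C a : K[X])}).IsMaximal := span_X_sub_C_isMaximal' a
  haveI := Q.isPrime
  haveI : Q.asIdeal.LiesOver (Ideal.span {(X - C a : K[X])}) :=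
    ⟨(comap_eq_span_of_mem Q a hQ).symm⟩
  have hle := ramificationIdx_sub_one_le_count K[X] (span_X_sub_C_ne_bot a) Q.asIdeal
  omega

/-- **the `k`-side input of the wild end-game**: from the Riemann–Hurwitz formula of (RRgen). -/
theorem total_diffFin_add_le {g : ℕ}
    (hg : 2 * (g : ℤ) - 2 = -2 * (finrank (RatFunc K) F : ℤ)
      + Multiset.card (normalizedFactors (differentIdeal K[X] B))
      + Multiset.card (normalizedFactors (differentIdeal (Ainf K) Binf))) :
    (total (diffFin K F B) : ℤ) + ((finrank (RatFunc K) F : ℤ) -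
      Nat.card (Tame.polesOf (K := K) (algebraMap (RatFunc K) F RatFunc.X)))
        - 2 * (finrank (RatFunc K) F : ℤ) ≤ 2 * (g : ℤ) - 2 := by
  haveI := isSeparable_chart_inf K F Binf
  have h2 := sub_card_polar_le_card_differentIdeal K F Binf
  rw [finrank_chart_inf K F Binf] at h2
  rw [total_diffFin, polesOf_eq_polar]
  linarith

end Fermat.Agent.S18lib.G
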