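/-
S18lib / G / FiveLe  (helper5)

**(Asm-tame)**: the genus equality `G.exists_genus` for `ℓ ≥ 5`.

`y = j`, `S = {0, 1728} ⊂ A` (injective residues since `1728 = 2⁶ 3³`), the characteristic-0
Riemann–Hurwitz count `Gin0.rh_count`, the characteristic-`ℓ` lower bound
`RRgen.Canonical.rhLower_genusOf` at `x = j̄`, degree preservation
`deg (j)_∞ = ψ(N) = deg (j̄)_∞`, and `G.exists_genus_of_tame`.
-/
import Mathlib
import Fermat.Agent.S18lib.G.Compare
import Fermat.Agent.S18lib.Gin0.Genus
import Fermat.Agent.S18lib.Gink.Sep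
import Fermat.Agent.S18lib.Gink.Degree
import Fermat.Agent.S18lib.RRgen.Canonical
import Fermat.Agent.S18lib.V.GaussU.Frame

set_option autoImplicit false
set_option linter.style.haveILetI false
set_option linter.unusedSectionVars false

noncomputable section

namespace Fermat.Agent.S18lib.G

open AlgebraicCurve ModularCurve IntermediateField Polynomial Module
open Fermat.Agent.ProgramR Fermat.Agent.ProgramR.RR

/-- **`deg (x)_∞ = [F : K(x)]`, instance-free** (any characteristic). -/
theorem degree_poleDiv_of_transcendental (K : Type*) [Field K] [IsAlgClosed K] {F : Type*}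
    [Field F] [Algebra K F] {x : F} (hx : Transcendental K x) [FiniteDimensional K⟮x⟯ F]
    [Algebra.IsSeparable K⟮x⟯ F] [HasPrincipalDivisors K F] :
    Divisor.degree (Tame.poleDiv (K := K) x) = (finrank K⟮x⟯ F : ℤ) := by
  letI := RRgen.Canonical.polyAlgebra K x
  letI := RRgen.Canonical.ratFuncAlgebra K hx
  haveI := RRgen.Canonical.isScalarTower_poly_ratFunc K hx
  haveI := RRgen.Canonical.isScalarTower_const_ratFunc K hx
  haveI := RRgen.Canonical.finiteDimensional_ratFunc K hx
  haveI := RRgen.Canonical.isSeparable_ratFunc K hx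
  haveI := RRgen.Canonical.isScalarTower_ainf_ratFunc K F
  haveI := RRgen.Canonical.isScalarTower_const_ainf K F
  letI := RRgen.Canonical.algebraBInf K F
  haveI := RRgen.Canonical.isScalarTower_const_BInf K F
  haveI := RRgen.Canonical.isTorsionFree_BInf K F
  haveI := RRgen.Canonical.isFractionRing_BInf K F
  haveI := RRgen.Canonical.isDedekindDomain_BInf K F
  haveI := RRgen.Canonical.finite_BInf K F
  have h := RHCount.degree_poleDiv_eq_finrank K F (RRgen.Canonical.BInf K F)
  rw [RRgen.Canonical.algebraMap_ratFuncAlgebra_X K hx, RRgen.Canonical.finrank_ratFunc K hx] at h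
  exact h

variable (N : ℕ) [NeZero N] {ℓ : ℕ} [Fact ℓ.Prime]
variable (A : ValuationSubring (AlgebraicClosure ℚ))

local notation "Qb" => AlgebraicClosure ℚ

/-- `j ∈ O`. -/
theorem jF_mem_datum_O (hℓN : ¬ ℓ ∣ N) (hA : A.LiesOverPrime ℓ) (h : ReductionInputsModL A N) :
    Gin0.jF N ∈ (V.datum N A hℓN hA h).O :=
  V.jBar_mem_gaussDatum_O N A hℓN hA

/-- `red j = j̄`. -/
theorem datum_redF_jF (hℓN : ¬ ℓ ∣ N) (hA : A.LiesOverPrime ℓ) (h : ReductionInputsModL A N) :
    (V.datum N A hℓN hA h).redF (Gin0.jF N) = Gink.jK A N := by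
  have h1 : (V.datum N A hℓN hA h).redF (Gin0.jF N) = V.jRes N A :=
    V.gaussDatum_redF_jBar N A hℓN hA
  rw [h1]
  apply Subtype.ext
  rw [V.coe_jRes, Gink.coe_jK]

/-- **Genus equality for `ℓ ≥ 5`.** -/
theorem exists_genus_of_five_le (hℓN : ¬ ℓ ∣ N) (hA : A.LiesOverPrime ℓ)
    (h : ReductionInputsModL A N) (h5 : 5 ≤ ℓ) :
    ∃ g : ℕ, IsCurveOfGenus (AlgebraicClosure ℚ) (FBar N) g ∧
      IsCurveOfGenus (IsLocalRing.ResidueField A) (FRes A N) g := by
  classical
  -- characteristic 0 side
  obtain ⟨g, hF, hg⟩ := Gin0.exists_isCurveOfGenus_FBar N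
  -- characteristic ℓ side
  have hx : Transcendental (kRes A) (Gink.jK A N) := Gink.transcendental_jK A N
  haveI : Algebra.IsSeparable (kRes A)⟮Gink.jK A N⟯ (FRes A N) := Gink.isSeparable_jK A N hA hℓN
  have hFk : IsCurveOfGenus (kRes A) (FRes A N) (RRgen.Canonical.genusOf (kRes A) hx) :=
    RRgen.Canonical.isCurveOfGenus_genusOf (kRes A) hx
  have hkk := RRgen.Canonical.rhLower_genusOf (kRes A) hx
  rw [Gink.finrank_jK A N hA hℓN] at hkk
  letI := hF.hasPrincipalDivisors
  letI := hFk.hasPrincipalDivisors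
  -- the datum
  set D := V.datum N A hℓN hA h with hD
  have hyO : Gin0.jF N ∈ D.O := jF_mem_datum_O N A hℓN hA h
  have hred : D.redF (Gin0.jF N) = Gink.jK A N := datum_redF_jF N A hℓN hA h
  -- degree preservation
  have hpres : Divisor.degree (Tame.poleDiv (K := Qb) (Gin0.jF N)) =
      Divisor.degree (Tame.poleDiv (K := kRes A) (D.redF (Gin0.jF N))) := by
    rw [hred, Gin0.degree_poleDiv_jF N, degree_poleDiv_of_transcendental (kRes A) hx,
      Gink.finrank_jK A N hA hℓN]
  -- `j̄` is not constant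
  have hnc : ∀ c : A, D.redF (Gin0.jF N) ≠
      algebraMap (kRes A) (FRes A N) (IsLocalRing.residue A c) := by
    intro c hc
    rw [hred] at hc
    exact hx (hc ▸ isAlgebraic_algebraMap _)
  -- the branch values
  have h1728 : ((1728 : ℕ) : kRes A) ≠ 0 := by
    refine Gink.natCast_ne_zero_kRes hA fun hdvd => ?_
    have hℓ : ℓ.Prime := Fact.out
    have h2 : ℓ ∣ 2 ^ 6 * 3 ^ 3 := by norm_num; exact hdvd
    rcases (Nat.Prime.dvd_mul hℓ).mp h2 with h2 | h3
    · have := (Nat.prime_dvd_prime_iff_eq hℓ Nat.prime_two).mp (hℓ.dvd_of_dvd_pow h2)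
      omega
    · have := (Nat.prime_dvd_prime_iff_eq hℓ Nat.prime_three).mp (hℓ.dvd_of_dvd_pow h3)
      omega
  have hA1728 : (1728 : A) ≠ 0 := by
    intro h0
    apply h1728
    have := congrArg (IsLocalRing.residue A) h0
    rw [map_zero, map_ofNat] at this
    rw [← this]
    norm_num
  have hinj : Set.InjOn (IsLocalRing.residue A) (({0, 1728} : Finset A) : Set A) := by
    have hres : IsLocalRing.residue A (1728 : A) ≠ 0 := by
      rw [map_ofNat]
      intro h0
      apply h1728
      rw [← h0]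
      norm_num
    intro a ha b hb hab
    simp only [Finset.coe_insert, Finset.coe_singleton, Set.mem_insert_iff,
      Set.mem_singleton_iff] at ha hb
    rcases ha with rfl | rfl <;> rcases hb with rfl | rfl
    · rfl
    · rw [map_zero] at hab; exact absurd hab.symm hres
    · rw [map_zero] at hab; exact absurd hab hres
    · rfl
  -- the characteristic-0 count
  have h0 : 2 * (g : ℤ) - 2 ≤
      (∑ a ∈ ({0, 1728} : Finset A), ((dedekindPsi N : ℤ) -
        Nat.card (Tame.zerosOf (K := Qb) (Gin0.jF N - algebraMap Qb (FBar N) ((a : A) : Qb)))))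
      + ((dedekindPsi N : ℤ) - Nat.card (Tame.polesOf (K := Qb) (Gin0.jF N)))
      - 2 * (dedekindPsi N : ℤ) := by
    have hc := Gin0.rh_count N hg
    have hne : (0 : Qb) ∉ ({1728} : Finset Qb) := by
      rw [Finset.mem_singleton]; norm_num
    have hneA : (0 : A) ∉ ({1728} : Finset A) := by
      rw [Finset.mem_singleton]; exact fun h => hA1728 h.symm
    rw [Finset.sum_insert hne, Finset.sum_singleton] at hc
    rw [Finset.sum_insert hneA, Finset.sum_singleton]
    have e0 : ((0 : A) : Qb) = 0 := rfl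
    have e1 : ((1728 : A) : Qb) = 1728 := rfl
    rw [e0, e1]
    exact hc.le
  -- the characteristic-ℓ bound
  have hk : Tame.RHLower (kRes A) (D.redF (Gin0.jF N)) (dedekindPsi N)
      (RRgen.Canonical.genusOf (kRes A) hx) := by
    rw [hred]; exact hkk
  exact exists_genus_of_tame D (V.datum_hasOrthonormalBases N A hℓN hA h) hF hFk hyO hpres hnc
    ({0, 1728} : Finset A) hinj h0 hk

end Fermat.Agent.S18lib.G
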