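/-
S18lib / G / Wild  (helper5)

The generic **wild end-game** of the genus comparison over a reduction datum `D`
(for `ℓ = 2, 3`, where the characteristic-0 branch values `0, 1728` have the same residue).

`y ∈ O` a good function, `S ⊆ A` the finite characteristic-0 branch values (no injectivity of
residues), `n = deg (y)_∞`.  Hypotheses:
* `h0` : the characteristic-0 Riemann–Hurwitz count
  `2g - 2 ≤ ∑_{a ∈ S} (n - #zeros(y - a)) + (n - #poles y) - 2n`;
* `d0 : Place L F →₀ ℕ` with `e_P - 1 ≤ d0 P` at the zeros of `y - a`, `a ∈ S`;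
* `dk : Place k Fk →₀ ℕ` with `total dk + (n - #poles ȳ) - 2n ≤ 2 g_k - 2`
  (the finite part of the different on the `k`-side + the general bound at infinity);
* `hw` : the local inequalities `∑_{P ↦ Q} d0 P ≤ dk Q` at the places `Q` over `ȳ = ā`, `a ∈ S`.
Conclusion: `g ≤ g_k`.  Nothing is asked at infinity: `#poles ȳ ≤ #poles y` is
`Tame.card_polesOf_le`.
-/
import Mathlib
import Fermat.Agent.S18lib.G.Compare

set_option autoImplicit false

noncomputable section

namespace Fermat.Agent.S18lib.G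

open AlgebraicCurve Fermat.Agent.S18lib.Tame

section Generic

variable {K F : Type*} [Field K] [Field F] [Algebra K F] [HasPrincipalDivisors K F]

/-- `n - #zeros f = ∑_{P zero of f} (e_P - 1)` when `deg (f)_0 = n` and all places are rational. -/
theorem sub_card_zerosOf_eq_sum (hdeg1 : ∀ P : Place K F, P.deg = 1) (f : F) {n : ℕ}
    (hn : Divisor.degree (zeroDiv (K := K) f) = n) :
    (n : ℤ) - Nat.card (zerosOf (K := K) f) =
      ∑ P ∈ (zeroDiv (K := K) f).support, (P.ord f - 1) := by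
  classical
  have h1 : Divisor.degree (zeroDiv (K := K) f) =
      ∑ P ∈ (zeroDiv (K := K) f).support, P.ord f := by
    have h1 : Divisor.degree (zeroDiv (K := K) f) =
        ∑ v ∈ (zeroDiv (K := K) f).support, zeroDiv (K := K) f v * (v.deg : ℤ) := by
      simp [Divisor.degree, Finsupp.liftAddHom_apply, Finsupp.sum]
    rw [h1]
    refine Finset.sum_congr rfl fun v hv => ?_
    rw [hdeg1 v, Nat.cast_one, mul_one, zeroDiv_apply]
    exact max_eq_left (mem_support_zeroDiv.mp hv).le
  have h2 : Nat.card (zerosOf (K := K) f) = (zeroDiv (K := K) f).support.card := by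
    rw [zerosOf_eq_support, Nat.card_coe_set_eq, Set.ncard_coe_finset]
  rw [Finset.sum_sub_distrib, ← h1, hn, h2, Finset.sum_const, nsmul_eq_mul, mul_one]

/-- distinct constants have disjoint fibres -/
theorem disjoint_support_zeroDiv_sub {y : F} {a b : K} (hab : a ≠ b)
    (ha : y - algebraMap K F a ≠ 0) :
    Disjoint (zeroDiv (K := K) (y - algebraMap K F a)).support
      (zeroDiv (K := K) (y - algebraMap K F b)).support := by
  rw [Finset.disjoint_left]
  intro P hPa hPb
  rw [mem_support_zeroDiv] at hPa hPb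
  have hc : algebraMap K F (a - b) ≠ 0 := by
    rw [Ne, map_eq_zero_iff _ (algebraMap K F).injective]
    exact sub_ne_zero.mpr hab
  have h0 : P.ord (algebraMap K F (a - b)) = 0 := ord_const P (sub_ne_zero.mpr hab)
  have h1 : P.ord (algebraMap K F (a - b) + (y - algebraMap K F a)) =
      P.ord (algebraMap K F (a - b)) := ord_add_eq_of_lt P hc ha (by rw [h0]; exact hPa)
  have h2 : algebraMap K F (a - b) + (y - algebraMap K F a) = y - algebraMap K F b := by
    rw [map_sub]; ring
  rw [h2, h0] at h1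
  omega

end Generic

/-- sum over a finite set is bounded by the sum of the push-forward over the image -/
theorem sum_le_sum_mapDomain {α β : Type*} [DecidableEq β] (r : α → β) (d : α →₀ ℕ)
    (Z : Finset α) :
    ∑ P ∈ Z, d P ≤ ∑ Q ∈ Z.image r, Finsupp.mapDomain r d Q := by
  classical
  rw [← Finset.sum_fiberwise_of_maps_to (g := r) (t := Z.image r)
    (fun x hx => Finset.mem_image_of_mem r hx)]
  refine Finset.sum_le_sum fun Q hQ => ?_
  obtain ⟨P0, _, rfl⟩ := Finset.mem_image.mp hQ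
  rw [Finsupp.mapDomain_apply_eq_sum]
  refine Finset.sum_le_sum_of_ne_zero fun P hP hne => ?_
  rw [Finset.mem_filter] at hP ⊢
  exact ⟨Finsupp.mem_support_iff.mpr hne, hP.2⟩

section Datum

variable {L : Type*} [Field L] {A : ValuationSubring L}
variable {F : Type*} [Field F] [Algebra L F]
variable {Fk : Type*} [Field Fk] [Algebra (IsLocalRing.ResidueField A) Fk]
variable (D : RedDatum A F Fk)
variable [HasPrincipalDivisors L F] [HasPrincipalDivisors (IsLocalRing.ResidueField A) Fk]

local notation "k" => IsLocalRing.ResidueField A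

/-- **Wild end-game.** -/
theorem genus_le_of_wild (hdegL : ∀ P : Place L F, P.deg = 1)
    (hdeg : ∀ Q : Place k Fk, 0 < Q.deg) {y : F} (hyO : y ∈ D.O)
    (hpres : Divisor.degree (poleDiv (K := L) y) = Divisor.degree (poleDiv (K := k) (D.redF y)))
    (hnc : ∀ c : A, D.redF y ≠ algebraMap k Fk (IsLocalRing.residue A c))
    (S : Finset A) {n g gk : ℕ}
    (hn : Divisor.degree (poleDiv (K := L) y) = n)
    (h0 : 2 * (g : ℤ) - 2 ≤
      (∑ a ∈ S, ((n : ℤ) - Nat.card (zerosOf (K := L) (y - algebraMap L F ((a : A) : L)))))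
        + ((n : ℤ) - Nat.card (polesOf (K := L) y)) - 2 * (n : ℤ))
    (d0 : Place L F →₀ ℕ)
    (hd0 : ∀ a ∈ S, ∀ P : Place L F, 0 < P.ord (y - algebraMap L F ((a : A) : L)) →
      P.ord (y - algebraMap L F ((a : A) : L)) - 1 ≤ (d0 P : ℤ))
    (dk : Place k Fk →₀ ℕ)
    (hk : (total dk : ℤ) + ((n : ℤ) - Nat.card (polesOf (K := k) (D.redF y))) - 2 * (n : ℤ) ≤
      2 * (gk : ℤ) - 2)
    (hw : ∀ a ∈ S, ∀ Q : Place k Fk,
      0 < Q.ord (D.redF y - algebraMap k Fk (IsLocalRing.residue A a)) →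
      Finsupp.mapDomain D.r d0 Q ≤ dk Q) : g ≤ gk := by
  classical
  have hy : D.redF y ≠ 0 := by
    have := hnc 0
    rwa [map_zero, map_zero] at this
  have hne : ∀ a : A, y - algebraMap L F ((a : A) : L) ≠ 0 := by
    intro a h0
    apply hnc a
    rw [sub_eq_zero.mp h0, D.redF_algebraMap]
  -- the fibres
  set Za : A → Finset (Place L F) :=
    fun a => (zeroDiv (K := L) (y - algebraMap L F ((a : A) : L))).support with hZa
  have hcount : ∀ a ∈ S,
      (n : ℤ) - Nat.card (zerosOf (K := L) (y - algebraMap L F ((a : A) : L))) =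
        ∑ P ∈ Za a, (P.ord (y - algebraMap L F ((a : A) : L)) - 1) := by
    intro a _
    refine sub_card_zerosOf_eq_sum hdegL _ ?_
    rw [degree_zeroDiv, poleDiv_sub_const y _ (hne a), hn]
  have hdisj : ((S : Set A)).PairwiseDisjoint Za := by
    intro a _ b _ hab
    have hab' : ((a : A) : L) ≠ ((b : A) : L) := fun h => hab (Subtype.ext h)
    exact disjoint_support_zeroDiv_sub hab' (hne a)
  -- the finite part
  have hfin : (∑ a ∈ S,
      ((n : ℤ) - Nat.card (zerosOf (K := L) (y - algebraMap L F ((a : A) : L))))) ≤ total dk := by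
    calc (∑ a ∈ S,
          ((n : ℤ) - Nat.card (zerosOf (K := L) (y - algebraMap L F ((a : A) : L)))))
        = ∑ a ∈ S, ∑ P ∈ Za a, (P.ord (y - algebraMap L F ((a : A) : L)) - 1) :=
          Finset.sum_congr rfl hcount
      _ ≤ ∑ a ∈ S, ∑ P ∈ Za a, (d0 P : ℤ) :=
          Finset.sum_le_sum fun a ha => Finset.sum_le_sum fun P hP =>
            hd0 a ha P (mem_support_zeroDiv.mp hP)
      _ = ∑ P ∈ S.biUnion Za, (d0 P : ℤ) := (Finset.sum_biUnion hdisj).symm
      _ = ((∑ P ∈ S.biUnion Za, d0 P : ℕ) : ℤ) := (Nat.cast_sum _ _).symm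
      _ ≤ ((∑ Q ∈ (S.biUnion Za).image D.r, Finsupp.mapDomain D.r d0 Q : ℕ) : ℤ) := by
          exact_mod_cast sum_le_sum_mapDomain D.r d0 _
      _ ≤ ((∑ Q ∈ (S.biUnion Za).image D.r, dk Q : ℕ) : ℤ) := by
          refine Nat.cast_le.mpr (Finset.sum_le_sum fun Q hQ => ?_)
          obtain ⟨P, hP, rfl⟩ := Finset.mem_image.mp hQ
          obtain ⟨a, ha, hPa⟩ := Finset.mem_biUnion.mp hP
          exact hw a ha (D.r P)
            (ord_pos_of_ord_pos D hdeg hyO hpres a (hnc a) (mem_support_zeroDiv.mp hPa))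
      _ ≤ (total dk : ℤ) := by
          refine Nat.cast_le.mpr ?_
          unfold total Finsupp.sum
          refine Finset.sum_le_sum_of_ne_zero fun Q _ hne => Finsupp.mem_support_iff.mpr hne
  have hpol : (Nat.card (polesOf (K := k) (D.redF y)) : ℤ) ≤ Nat.card (polesOf (K := L) y) := by
    exact_mod_cast card_polesOf_le D hdeg hy hpres
  have : 2 * (g : ℤ) - 2 ≤ 2 * (gk : ℤ) - 2 := by linarith
  omega

/-- **Genus equality, wild end-game.** -/
theorem exists_genus_of_wild (hD : D.HasOrthonormalBases) {g gk : ℕ}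
    (hF : IsCurveOfGenus L F g) (hFk : IsCurveOfGenus k Fk gk) {y : F} (hyO : y ∈ D.O)
    (hpres : Divisor.degree (poleDiv (K := L) y) = Divisor.degree (poleDiv (K := k) (D.redF y)))
    (hnc : ∀ c : A, D.redF y ≠ algebraMap k Fk (IsLocalRing.residue A c))
    (S : Finset A) {n : ℕ}
    (hn : Divisor.degree (poleDiv (K := L) y) = n)
    (h0 : 2 * (g : ℤ) - 2 ≤
      (∑ a ∈ S, ((n : ℤ) - Nat.card (zerosOf (K := L) (y - algebraMap L F ((a : A) : L)))))
        + ((n : ℤ) - Nat.card (polesOf (K := L) y)) - 2 * (n : ℤ))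
    (d0 : Place L F →₀ ℕ)
    (hd0 : ∀ a ∈ S, ∀ P : Place L F, 0 < P.ord (y - algebraMap L F ((a : A) : L)) →
      P.ord (y - algebraMap L F ((a : A) : L)) - 1 ≤ (d0 P : ℤ))
    (dk : Place k Fk →₀ ℕ)
    (hk : (total dk : ℤ) + ((n : ℤ) - Nat.card (polesOf (K := k) (D.redF y))) - 2 * (n : ℤ) ≤
      2 * (gk : ℤ) - 2)
    (hw : ∀ a ∈ S, ∀ Q : Place k Fk,
      0 < Q.ord (D.redF y - algebraMap k Fk (IsLocalRing.residue A a)) →
      Finsupp.mapDomain D.r d0 Q ≤ dk Q) :
    ∃ g' : ℕ, IsCurveOfGenus L F g' ∧ IsCurveOfGenus k Fk g' := by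
  have h1 : gk ≤ g := RRlat.genus_le D hD hF hFk
  have hdeg : ∀ Q : Place k Fk, 0 < Q.deg := fun Q => by rw [hFk.deg_eq_one]; exact one_pos
  have h2 : g ≤ gk := genus_le_of_wild D hF.deg_eq_one hdeg hyO hpres hnc S hn h0 d0 hd0 dk hk hw
  have : g = gk := le_antisymm h2 h1
  subst this
  exact ⟨g, hF, hFk⟩

end Datum

end Fermat.Agent.S18lib.G
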