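/-
S18lib / G / DiffOf  (helper5)

Instance-free form of the finite part of the different on places (`G.diffFin` at the canonical
finite chart of the covering `x`), in the block of `RRgen.Canonical` (`K` algebraically closed, any
characteristic, `x : F` transcendental over `K`, `F / K⟮x⟯` finite separable):

* `diffOf K hx : Place K F →₀ ℕ`;
* `diffOf_placeFin` (under the canonical `letI` chain): `= count Q0 (nF (Diff (BFin K F) / K[X]))`;
* `ord_sub_one_le_diffOf` : `e_P - 1 ≤ diffOf P` at the zeros of `x - a`;
* `total_diffOf_add_le` : `total diffOf + (n - #poles x) - 2n ≤ 2 genusOf - 2`;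
* `exists_genus_of_wild_free` : the wild end-game over a reduction datum with the single local
  hypothesis `∑_{P ↦ Q} diffOf P ≤ diffOf Q` at the zeros `Q` of `ȳ - c`.
-/
import Mathlib
import Fermat.Agent.S18lib.G.Wild
import Fermat.Agent.S18lib.G.DiffDiv
import Fermat.Agent.S18lib.G.FiveLe
import Fermat.Agent.S18lib.RRgen.Canonical

set_option autoImplicit false
set_option linter.style.haveILetI false
set_option linter.unusedSectionVars false

noncomputable section

namespace Fermat.Agent.S18lib.G

open Polynomial IsDedekindDomain AlgebraicCurve UniqueFactorizationMonoid Module IntermediateField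
open Fermat.Agent.ProgramR Fermat.Agent.ProgramR.RR Fermat.Agent.S18lib.RRgen.Canonical

section Free

variable (K : Type*) [Field K] [IsAlgClosed K] {F : Type*} [Field F] [Algebra K F] {x : F}
  (hx : Transcendental K x) [FiniteDimensional K⟮x⟯ F] [Algebra.IsSeparable K⟮x⟯ F]

/-- **the finite part of the different of the covering `x`, as a divisor on places** -/
def diffOf : Place K F →₀ ℕ :=
  letI := polyAlgebra K x
  letI := ratFuncAlgebra K hx
  haveI := isScalarTower_poly_ratFunc K hx
  haveI := isScalarTower_const_ratFunc K hx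
  haveI := finiteDimensional_ratFunc K hx
  haveI := isSeparable_ratFunc K hx
  haveI := isScalarTower_const_poly K F
  haveI := isScalarTower_const_BFin K F
  haveI := isTorsionFree_BFin K F
  haveI := isFractionRing_BFin K F
  haveI := isDedekindDomain_BFin K F
  haveI := finite_BFin K F
  diffFin K F (BFin K F)

/-- the defining equation, under the canonical instances -/
theorem diffOf_eq_diffFin :
    letI := polyAlgebra K x
    letI := ratFuncAlgebra K hx
    haveI := isScalarTower_poly_ratFunc K hx
    haveI := isScalarTower_const_ratFunc K hx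
    haveI := finiteDimensional_ratFunc K hx
    haveI := isSeparable_ratFunc K hx
    haveI := isScalarTower_const_poly K F
    haveI := isScalarTower_const_BFin K F
    haveI := isTorsionFree_BFin K F
    haveI := isFractionRing_BFin K F
    haveI := isDedekindDomain_BFin K F
    haveI := finite_BFin K F
    diffOf K hx = diffFin K F (BFin K F) := rfl

/-- the values at the places of the canonical finite chart -/
theorem diffOf_placeFin :
    letI := polyAlgebra K x
    letI := ratFuncAlgebra K hx
    haveI := isScalarTower_poly_ratFunc K hx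
    haveI := isScalarTower_const_ratFunc K hx
    haveI := finiteDimensional_ratFunc K hx
    haveI := isSeparable_ratFunc K hx
    haveI := isScalarTower_const_poly K F
    haveI := isScalarTower_const_BFin K F
    haveI := isTorsionFree_BFin K F
    haveI := isFractionRing_BFin K F
    haveI := isDedekindDomain_BFin K F
    haveI := finite_BFin K F
    ∀ Q0 : HeightOneSpectrum (BFin K F),
      diffOf K hx (RRgen.placeFin K F (BFin K F) Q0) =
        Multiset.count Q0.asIdeal (normalizedFactors (differentIdeal K[X] (BFin K F))) := by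
  letI := polyAlgebra K x
  letI := ratFuncAlgebra K hx
  haveI := isScalarTower_poly_ratFunc K hx
  haveI := isScalarTower_const_ratFunc K hx
  haveI := finiteDimensional_ratFunc K hx
  haveI := isSeparable_ratFunc K hx
  haveI := isScalarTower_const_poly K F
  haveI := isScalarTower_const_BFin K F
  haveI := isTorsionFree_BFin K F
  haveI := isFractionRing_BFin K F
  haveI := isDedekindDomain_BFin K F
  haveI := finite_BFin K F
  intro Q0
  exact diffFin_placeFin K F (BFin K F) Q0

/-- `diffOf` vanishes at the poles of `x`. -/
theorem diffOf_of_ord_neg {v : Place K F} (hv : v.ord x < 0) : diffOf K hx v = 0 := by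
  letI := polyAlgebra K x
  letI := ratFuncAlgebra K hx
  haveI := isScalarTower_poly_ratFunc K hx
  haveI := isScalarTower_const_ratFunc K hx
  haveI := finiteDimensional_ratFunc K hx
  haveI := isSeparable_ratFunc K hx
  haveI := isScalarTower_const_poly K F
  haveI := isScalarTower_const_BFin K F
  haveI := isTorsionFree_BFin K F
  haveI := isFractionRing_BFin K F
  haveI := isDedekindDomain_BFin K F
  haveI := finite_BFin K F
  refine diffFin_of_ord_neg K F (BFin K F) ?_
  rw [algebraMap_ratFuncAlgebra_X K hx]
  exact hv

/-- **`e_P - 1 ≤ d_P`** at a zero of `x - a`, any characteristic. -/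
theorem ord_sub_one_le_diffOf (a : K) (P : Place K F) (hP : 0 < P.ord (x - algebraMap K F a)) :
    P.ord (x - algebraMap K F a) - 1 ≤ (diffOf K hx P : ℤ) := by
  letI := polyAlgebra K x
  letI := ratFuncAlgebra K hx
  haveI := isScalarTower_poly_ratFunc K hx
  haveI := isScalarTower_const_ratFunc K hx
  haveI := finiteDimensional_ratFunc K hx
  haveI := isSeparable_ratFunc K hx
  haveI := isScalarTower_const_poly K F
  haveI := isScalarTower_const_BFin K F
  haveI := isTorsionFree_BFin K F
  haveI := isFractionRing_BFin K F
  haveI := isDedekindDomain_BFin K F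
  haveI := finite_BFin K F
  have h := ord_sub_one_le_diffFin K F (BFin K F) a P
    (by rw [algebraMap_ratFuncAlgebra_X K hx]; exact hP)
  rw [algebraMap_ratFuncAlgebra_X K hx] at h
  exact h

/-- **Riemann–Hurwitz lower bound with the finite different kept**, instance-free. -/
theorem total_diffOf_add_le :
    (total (diffOf K hx) : ℤ) + ((finrank K⟮x⟯ F : ℤ) -
      Nat.card (Tame.polesOf (K := K) x)) - 2 * (finrank K⟮x⟯ F : ℤ) ≤
        2 * (genusOf K hx : ℤ) - 2 := by
  letI := polyAlgebra K x
  letI := ratFuncAlgebra K hx
  haveI := isScalarTower_poly_ratFunc K hx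
  haveI := isScalarTower_const_ratFunc K hx
  haveI := finiteDimensional_ratFunc K hx
  haveI := isSeparable_ratFunc K hx
  haveI := isScalarTower_const_poly K F
  haveI := isScalarTower_ainf_ratFunc K F
  haveI := isScalarTower_const_ainf K F
  letI := algebraBInf K F
  haveI := isScalarTower_const_BFin K F
  haveI := isScalarTower_const_BInf K F
  haveI := isTorsionFree_BFin K F
  haveI := isTorsionFree_BInf K F
  haveI := isFractionRing_BFin K F
  haveI := isDedekindDomain_BFin K F
  haveI := finite_BFin K F
  haveI := isFractionRing_BInf K F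
  haveI := isDedekindDomain_BInf K F
  haveI := finite_BInf K F
  have h := total_diffFin_add_le K F (BFin K F) (BInf K F) (g := genusCharts K F) (rh_charts K F)
  rw [algebraMap_ratFuncAlgebra_X K hx, finrank_ratFunc K hx] at h
  exact h

end Free

section Datum

variable {L : Type*} [Field L] [IsAlgClosed L] {A : ValuationSubring L}
  [IsAlgClosed (IsLocalRing.ResidueField A)]
variable {F : Type*} [Field F] [Algebra L F]
variable {Fk : Type*} [Field Fk] [Algebra (IsLocalRing.ResidueField A) Fk]

local notation "k" => IsLocalRing.ResidueField A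

/-- **Genus equality, wild end-game, instance-free.**  `S ⊆ A` the characteristic-0 branch values
of `y`, all with residue `c`; the only local input is `hw` at the zeros of `ȳ - c`. -/
theorem exists_genus_of_wild_free (D : RedDatum A F Fk) (hD : D.HasOrthonormalBases)
    {g : ℕ} (hF : IsCurveOfGenus L F g)
    {y : F} (hy : Transcendental L y) [FiniteDimensional L⟮y⟯ F] [Algebra.IsSeparable L⟮y⟯ F]
    {yk : Fk} (hyk : Transcendental k yk) [FiniteDimensional k⟮yk⟯ Fk]
    [Algebra.IsSeparable k⟮yk⟯ Fk]
    (hyO : y ∈ D.O) (hred : D.redF y = yk)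
    (hn : finrank L⟮y⟯ F = finrank k⟮yk⟯ Fk)
    (S : Finset A) (c : k) (hS : ∀ a ∈ S, IsLocalRing.residue A a = c)
    (h0 : 2 * (g : ℤ) - 2 ≤
      (∑ a ∈ S, ((finrank L⟮y⟯ F : ℤ) - Nat.card (Tame.zerosOf (K := L)
        (y - algebraMap L F ((a : A) : L)))))
        + ((finrank L⟮y⟯ F : ℤ) - Nat.card (Tame.polesOf (K := L) y))
        - 2 * (finrank L⟮y⟯ F : ℤ))
    (hw : ∀ Q : Place k Fk, 0 < Q.ord (yk - algebraMap k Fk c) →
      Finsupp.mapDomain D.r (diffOf L hy) Q ≤ diffOf k hyk Q) :
    ∃ g' : ℕ, IsCurveOfGenus L F g' ∧ IsCurveOfGenus k Fk g' := by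
  have hFk : IsCurveOfGenus k Fk (genusOf k hyk) := isCurveOfGenus_genusOf k hyk
  letI := hF.hasPrincipalDivisors
  letI := hFk.hasPrincipalDivisors
  have hnL : Divisor.degree (Tame.poleDiv (K := L) y) = (finrank L⟮y⟯ F : ℤ) :=
    degree_poleDiv_of_transcendental L hy
  have hnk : Divisor.degree (Tame.poleDiv (K := k) yk) = (finrank k⟮yk⟯ Fk : ℤ) :=
    degree_poleDiv_of_transcendental k hyk
  have hpres : Divisor.degree (Tame.poleDiv (K := L) y) =
      Divisor.degree (Tame.poleDiv (K := k) (D.redF y)) := by
    rw [hred, hnL, hnk, hn]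
  have hnc : ∀ a : A, D.redF y ≠ algebraMap k Fk (IsLocalRing.residue A a) := by
    intro a ha
    rw [hred] at ha
    exact hyk (ha ▸ isAlgebraic_algebraMap _)
  have hk : (total (diffOf k hyk) : ℤ) + ((finrank L⟮y⟯ F : ℤ) -
      Nat.card (Tame.polesOf (K := k) (D.redF y))) - 2 * (finrank L⟮y⟯ F : ℤ) ≤
        2 * (genusOf k hyk : ℤ) - 2 := by
    rw [hred, hn]
    exact total_diffOf_add_le k hyk
  refine exists_genus_of_wild D hD hF hFk hyO hpres hnc S hnL h0 (diffOf L hy)
    (fun a _ P hP => ord_sub_one_le_diffOf L hy _ P hP) (diffOf k hyk) hk ?_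
  intro a ha Q hQ
  rw [hred, hS a ha] at hQ
  exact hw Q hQ

end Datum

end Fermat.Agent.S18lib.G
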