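/-
S18lib / G / TwoThree  (helper5)

The genus equality `G.exists_genus` in the wild cases `ℓ ∈ {2, 3}` (more generally whenever
`1728 ≡ 0 mod ℓ`), reduced to the single local input at the places over `j̄ = 0`:

`∑_{P ↦ Q} d_P ≤ d_Q` for the finite differents of the `j`-coverings on both sides
(`G.diffOf`), and the case split `5 ≤ ℓ ∨ ℓ < 5` for the final statement.
-/
import Mathlib
import Fermat.Agent.S18lib.G.DiffOf

set_option autoImplicit false
set_option linter.style.haveILetI false
set_option linter.unusedSectionVars false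

noncomputable section

namespace Fermat.Agent.S18lib.G

open AlgebraicCurve ModularCurve IntermediateField Polynomial Module
open Fermat.Agent.ProgramR Fermat.Agent.ProgramR.RR

variable (N : ℕ) [NeZero N] {ℓ : ℕ} [Fact ℓ.Prime]
variable (A : ValuationSubring (AlgebraicClosure ℚ))

local notation "Qb" => AlgebraicClosure ℚ

/-- the local input of the wild cases: conservation of the different at the places over
`j̄ = 0`. -/
def WildInput (hℓN : ¬ ℓ ∣ N) (hA : A.LiesOverPrime ℓ) (h : ReductionInputsModL A N) : Prop :=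
  haveI : Algebra.IsSeparable (kRes A)⟮Gink.jK A N⟯ (FRes A N) := Gink.isSeparable_jK A N hA hℓN
  ∀ Q : Place (kRes A) (FRes A N), 0 < Q.ord (Gink.jK A N) →
    Finsupp.mapDomain (V.datum N A hℓN hA h).r (diffOf Qb (Gin0.transcendental_jF N)) Q ≤
      diffOf (kRes A) (Gink.transcendental_jK A N) Q

/-- **Genus equality when `1728 ≡ 0 mod ℓ`** (`ℓ = 2, 3`), from the local input. -/
theorem exists_genus_of_wildInput (hℓN : ¬ ℓ ∣ N) (hA : A.LiesOverPrime ℓ)
    (h : ReductionInputsModL A N) (h1728 : ℓ ∣ 1728) (hw : WildInput N A hℓN hA h) :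
    ∃ g : ℕ, IsCurveOfGenus (AlgebraicClosure ℚ) (FBar N) g ∧
      IsCurveOfGenus (IsLocalRing.ResidueField A) (FRes A N) g := by
  classical
  obtain ⟨g, hF, hg⟩ := Gin0.exists_isCurveOfGenus_FBar N
  haveI : Algebra.IsSeparable (kRes A)⟮Gink.jK A N⟯ (FRes A N) := Gink.isSeparable_jK A N hA hℓN
  set D := V.datum N A hℓN hA h with hD
  -- `1728 = 0` in the residue field
  have hres : IsLocalRing.residue A (1728 : A) = 0 := by
    haveI := Gink.charP_kRes A hA
    have h0 : ((1728 : ℕ) : kRes A) = 0 := (CharP.cast_eq_zero_iff (kRes A) ℓ 1728).mpr h1728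
    rw [map_ofNat]
    exact_mod_cast h0
  have hA1728 : (1728 : A) ≠ 0 := by
    intro h0
    have := congrArg (fun a : A => (a : Qb)) h0
    simp only [ZeroMemClass.coe_zero] at this
    have e1 : ((1728 : A) : Qb) = 1728 := rfl
    rw [e1] at this
    norm_num at this
  refine exists_genus_of_wild_free D (V.datum_hasOrthonormalBases N A hℓN hA h) hF
    (Gin0.transcendental_jF N) (Gink.transcendental_jK A N)
    (jF_mem_datum_O N A hℓN hA h) (datum_redF_jF N A hℓN hA h)
    (by rw [Gin0.finrank_jF, Gink.finrank_jK A N hA hℓN])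
    ({0, 1728} : Finset A) 0 ?_ ?_ ?_
  · intro a ha
    rw [Finset.mem_insert, Finset.mem_singleton] at ha
    rcases ha with rfl | rfl
    · exact map_zero _
    · exact hres
  · rw [Gin0.finrank_jF]
    have hc := Gin0.rh_count N hg
    have hne : (0 : Qb) ∉ ({1728} : Finset Qb) := by
      rw [Finset.mem_singleton]; norm_num
    have hneA : (0 : A) ∉ ({1728} : Finset A) := by
      rw [Finset.mem_singleton]; exact fun h => hA1728 h.symm
    rw [Finset.sum_insert hne, Finset.sum_singleton] at hc
    rw [Finset.sum_insert hneA, Finset.sum_singleton]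
    have e0 : ((0 : A) : Qb) = 0 := rfl
    have e1 : ((1728 : A) : Qb) = 1728 := rfl
    rw [e0, e1]
    exact hc.le
  · intro Q hQ
    rw [map_zero, sub_zero] at hQ
    exact hw Q hQ

/-- **`G.exists_genus` from the wild local input** (needed only for `ℓ < 5`). -/
theorem exists_genus_of_forall_wildInput (hℓN : ¬ ℓ ∣ N) (hA : A.LiesOverPrime ℓ)
    (h : ReductionInputsModL A N) (hw : ℓ < 5 → WildInput N A hℓN hA h) :
    ∃ g : ℕ, IsCurveOfGenus (AlgebraicClosure ℚ) (FBar N) g ∧
      IsCurveOfGenus (IsLocalRing.ResidueField A) (FRes A N) g := by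
  rcases le_or_gt 5 ℓ with h5 | h5
  · exact exists_genus_of_five_le N A hℓN hA h h5
  · have hℓ : ℓ.Prime := Fact.out
    have h1728 : ℓ ∣ 1728 := by
      have h2 := hℓ.two_le
      interval_cases ℓ
      · norm_num
      · norm_num
      · exact absurd hℓ (by norm_num)
    exact exists_genus_of_wildInput N A hℓN hA h h1728 (hw h5)

end Fermat.Agent.S18lib.G
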