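/-
S18lib / G / WildCharts  (helper5)

The wild end-game with the (RRgen) blocks on both sides of a reduction datum: the only remaining
hypothesis is the family of local inequalities at the primes `Q0 ∋ X - c` of the `k`-side finite
chart, in exactly the shape of the conclusion of `Norm.mapDomain_le_count_of_tower`:

`Finsupp.mapDomain D.r (diffFin L F BL) (placeFin k Fk Bk Q0) ≤
    count Q0.asIdeal (normalizedFactors (differentIdeal k[X] Bk))`.
-/
import Mathlib
import Fermat.Agent.S18lib.G.Wild
import Fermat.Agent.S18lib.G.DiffDiv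
import Fermat.Agent.S18lib.RHCount.PoleDegree

set_option autoImplicit false
set_option linter.style.haveILetI false
set_option linter.unusedSectionVars false

noncomputable section

namespace Fermat.Agent.S18lib.G

open Polynomial IsDedekindDomain AlgebraicCurve UniqueFactorizationMonoid Module
open Fermat.Agent.ProgramR Fermat.Agent.ProgramR.RR Fermat.Agent.S18lib.RHCount

section Chart

variable (K : Type*) [Field K] [IsAlgClosed K]
  (F : Type*) [Field F] [Algebra (RatFunc K) F] [Algebra K F] [IsScalarTower K (RatFunc K) F]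
  [FiniteDimensional (RatFunc K) F] [Algebra.IsSeparable (RatFunc K) F]
  (B : Type*) [CommRing B] [IsDedekindDomain B] [Algebra K[X] B] [Module.Finite K[X] B]
  [IsTorsionFree K[X] B] [Algebra B F] [IsFractionRing B F] [Algebra K[X] F]
  [IsScalarTower K[X] (RatFunc K) F] [IsScalarTower K[X] B F]
  [Algebra K B] [IsScalarTower K B F]

/-- a zero of `x - a` is the place of a prime of the finite chart containing `X - a` -/
theorem exists_placeFin_of_ord_pos (a : K) (P : Place K F)
    (hP : 0 < P.ord (algebraMap (RatFunc K) F RatFunc.X - algebraMap K F a)) :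
    ∃ Q : HeightOneSpectrum B, RRgen.placeFin K F B Q = P ∧
      algebraMap K[X] B (X - C a) ∈ Q.asIdeal := by
  haveI := isScalarTower_const_poly K F B
  have hxx : xOf K B F = algebraMap (RatFunc K) F RatFunc.X := xOf_eq_xInf K F B
  have hxP : RRgen.xF K F ∈ P.toValuationSubring := by
    have h1 : algebraMap (RatFunc K) F RatFunc.X - algebraMap K F a ∈ P.toValuationSubring :=
      (FF.mem_iff_ord_nonneg P _).mpr hP.le
    have h2 := P.toValuationSubring.add_mem _ _ h1 (P.algebraMap_mem' a)
    rwa [sub_add_cancel] at h2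
  have hr : P ∈ Set.range (RRgen.placeFin K F B) := by
    rw [RRgen.range_placeFin]; exact hxP
  obtain ⟨Q, rfl⟩ := hr
  have hX0 : algebraMap K[X] B (X - C a) ≠ 0 := algebraMap_X_sub_C_ne_zero' K B a
  refine ⟨Q, rfl, ?_⟩
  rw [← FF.ord_algebraMap_pos_iff (K := K) (F := F) Q _ hX0, algebraMap_X_sub_C_eq, hxx]
  exact hP

omit [IsAlgClosed K] [FiniteDimensional (RatFunc K) F] [Algebra.IsSeparable (RatFunc K) F] in
/-- the coordinate function is not constant -/
theorem xF_ne_const (c : K) : algebraMap (RatFunc K) F RatFunc.X ≠ algebraMap K F c := by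
  intro h
  rw [IsScalarTower.algebraMap_apply K (RatFunc K) F] at h
  have h1 := (algebraMap (RatFunc K) F).injective h
  have h2 : algebraMap K[X] (RatFunc K) X = algebraMap K[X] (RatFunc K) (C c) := by
    rw [RatFunc.algebraMap_X, RatFunc.algebraMap_C]; exact h1
  exact Polynomial.X_ne_C c (RatFunc.algebraMap_injective K h2)

end Chart

section Datum

variable (L : Type*) [Field L] [IsAlgClosed L] {A : ValuationSubring L}
  [IsAlgClosed (IsLocalRing.ResidueField A)]
  (F : Type*) [Field F] [Algebra (RatFunc L) F] [Algebra L F] [IsScalarTower L (RatFunc L) F]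
  [FiniteDimensional (RatFunc L) F] [Algebra.IsSeparable (RatFunc L) F]
  (BL : Type*) [CommRing BL] [IsDedekindDomain BL] [Algebra L[X] BL] [Module.Finite L[X] BL]
  [IsTorsionFree L[X] BL] [Algebra BL F] [IsFractionRing BL F] [Algebra L[X] F]
  [IsScalarTower L[X] (RatFunc L) F] [IsScalarTower L[X] BL F]
  [Algebra L BL] [IsScalarTower L BL F]
  (BinfL : Type*) [CommRing BinfL] [IsDedekindDomain BinfL] [Algebra (Ainf L) BinfL]
  [Module.Finite (Ainf L) BinfL] [IsTorsionFree (Ainf L) BinfL] [Algebra BinfL F]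
  [IsFractionRing BinfL F] [Algebra (Ainf L) F] [IsScalarTower (Ainf L) (RatFunc L) F]
  [IsScalarTower (Ainf L) BinfL F]
  [Algebra L BinfL] [IsScalarTower L BinfL F]

variable (Fk : Type*) [Field Fk] [Algebra (RatFunc (IsLocalRing.ResidueField A)) Fk]
  [Algebra (IsLocalRing.ResidueField A) Fk]
  [IsScalarTower (IsLocalRing.ResidueField A) (RatFunc (IsLocalRing.ResidueField A)) Fk]
  [FiniteDimensional (RatFunc (IsLocalRing.ResidueField A)) Fk]
  [Algebra.IsSeparable (RatFunc (IsLocalRing.ResidueField A)) Fk]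
  (Bk : Type*) [CommRing Bk] [IsDedekindDomain Bk] [Algebra (IsLocalRing.ResidueField A)[X] Bk]
  [Module.Finite (IsLocalRing.ResidueField A)[X] Bk]
  [IsTorsionFree (IsLocalRing.ResidueField A)[X] Bk] [Algebra Bk Fk] [IsFractionRing Bk Fk]
  [Algebra (IsLocalRing.ResidueField A)[X] Fk]
  [IsScalarTower (IsLocalRing.ResidueField A)[X] (RatFunc (IsLocalRing.ResidueField A)) Fk]
  [IsScalarTower (IsLocalRing.ResidueField A)[X] Bk Fk]
  [Algebra (IsLocalRing.ResidueField A) Bk] [IsScalarTower (IsLocalRing.ResidueField A) Bk Fk]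
  (Binfk : Type*) [CommRing Binfk] [IsDedekindDomain Binfk]
  [Algebra (Ainf (IsLocalRing.ResidueField A)) Binfk]
  [Module.Finite (Ainf (IsLocalRing.ResidueField A)) Binfk]
  [IsTorsionFree (Ainf (IsLocalRing.ResidueField A)) Binfk] [Algebra Binfk Fk]
  [IsFractionRing Binfk Fk] [Algebra (Ainf (IsLocalRing.ResidueField A)) Fk]
  [IsScalarTower (Ainf (IsLocalRing.ResidueField A)) (RatFunc (IsLocalRing.ResidueField A)) Fk]
  [IsScalarTower (Ainf (IsLocalRing.ResidueField A)) Binfk Fk]
  [Algebra (IsLocalRing.ResidueField A) Binfk]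
  [IsScalarTower (IsLocalRing.ResidueField A) Binfk Fk]

local notation "k" => IsLocalRing.ResidueField A

include BinfL Binfk in
/-- **Genus equality, wild end-game with charts.**  `S ⊆ A` the characteristic-0 branch values,
all with residue `c`; the only local input is `hw` at the primes of `Bk` over `x̄ = c`. -/
theorem exists_genus_of_wild_charts (D : RedDatum A F Fk) (hD : D.HasOrthonormalBases)
    {g : ℕ} (hF : IsCurveOfGenus L F g)
    (hxO : algebraMap (RatFunc L) F RatFunc.X ∈ D.O)
    (hx : D.redF (algebraMap (RatFunc L) F RatFunc.X) = algebraMap (RatFunc k) Fk RatFunc.X)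
    (hn : finrank (RatFunc L) F = finrank (RatFunc k) Fk)
    (S : Finset A) (c : k) (hS : ∀ a ∈ S, IsLocalRing.residue A a = c)
    (h0 : 2 * (g : ℤ) - 2 ≤
      (∑ a ∈ S, ((finrank (RatFunc L) F : ℤ) - Nat.card (Tame.zerosOf (K := L)
        (algebraMap (RatFunc L) F RatFunc.X - algebraMap L F ((a : A) : L)))))
        + ((finrank (RatFunc L) F : ℤ) - Nat.card (Tame.polesOf (K := L)
          (algebraMap (RatFunc L) F RatFunc.X))) - 2 * (finrank (RatFunc L) F : ℤ))
    (hw : ∀ Q0 : HeightOneSpectrum Bk, algebraMap k[X] Bk (X - C c) ∈ Q0.asIdeal →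
      Finsupp.mapDomain D.r (diffFin L F BL) (RRgen.placeFin k Fk Bk Q0) ≤
        Multiset.count Q0.asIdeal (normalizedFactors (differentIdeal k[X] Bk))) :
    ∃ g' : ℕ, IsCurveOfGenus L F g' ∧ IsCurveOfGenus k Fk g' := by
  have hFk : IsCurveOfGenus k Fk (RRgen.genus k Fk Bk Binfk) :=
    RRgen.isCurveOfGenus k Fk Bk Binfk
  have hgk := RRgen.two_mul_genus_sub_two_eq k Fk Bk Binfk
  letI := hF.hasPrincipalDivisors
  letI := hFk.hasPrincipalDivisors
  have hnL : Divisor.degree (Tame.poleDiv (K := L) (algebraMap (RatFunc L) F RatFunc.X)) =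
      (finrank (RatFunc L) F : ℤ) := degree_poleDiv_eq_finrank L F BinfL
  have hnk : Divisor.degree (Tame.poleDiv (K := k) (algebraMap (RatFunc k) Fk RatFunc.X)) =
      (finrank (RatFunc k) Fk : ℤ) := degree_poleDiv_eq_finrank k Fk Binfk
  have hpres : Divisor.degree (Tame.poleDiv (K := L) (algebraMap (RatFunc L) F RatFunc.X)) =
      Divisor.degree (Tame.poleDiv (K := k) (D.redF (algebraMap (RatFunc L) F RatFunc.X))) := by
    rw [hx, hnL, hnk, hn]
  have hnc : ∀ a : A, D.redF (algebraMap (RatFunc L) F RatFunc.X) ≠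
      algebraMap k Fk (IsLocalRing.residue A a) := by
    intro a
    rw [hx]
    exact xF_ne_const k Fk _
  have hk : (total (diffFin k Fk Bk) : ℤ) + ((finrank (RatFunc L) F : ℤ) -
      Nat.card (Tame.polesOf (K := k) (D.redF (algebraMap (RatFunc L) F RatFunc.X))))
        - 2 * (finrank (RatFunc L) F : ℤ) ≤ 2 * (RRgen.genus k Fk Bk Binfk : ℤ) - 2 := by
    rw [hx, hn]
    exact total_diffFin_add_le k Fk Bk Binfk hgk
  refine exists_genus_of_wild D hD hF hFk hxO hpres hnc S hnL h0 (diffFin L F BL)
    (fun a _ P hP => ord_sub_one_le_diffFin L F BL _ P hP) (diffFin k Fk Bk) hk ?_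
  intro a ha Q hQ
  rw [hx, hS a ha] at hQ
  obtain ⟨Q0, rfl, hQ0⟩ := exists_placeFin_of_ord_pos k Fk Bk c Q hQ
  rw [diffFin_placeFin]
  exact hw Q0 hQ0

end Datum

end Fermat.Agent.S18lib.G
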