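/-
S18lib / G / LocalCases (helper3): the two "easy" cases of the local inequalities
`∑_{P ↦ Q} d₀ P ≤ d_k Q` of `G.exists_genus_of_mapDomain_le` (wild branches `ℓ = 2, 3`).

`D` a reduction datum, `y ∈ O` with non-constant reduction and preserved degree (`y = j`),
`S ⊂ A` the finite branch values (`S = {0, 1728}`), `d₀` supported on the poles of `y` and the
zeros of `y - a`, `a ∈ S`:

* `mapDomain_eq_zero_of_unbranched` : if `Q` is neither a pole of `ȳ` nor a zero of some `ȳ - ā`,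
  then `∑_{P ↦ Q} d₀ P = 0`;
* `mapDomain_le_of_pole` : if `Q` is a pole of `ȳ`, `d₀ P ≤ e_P - 1` at the poles of `y` and
  `e_Q - 1 ≤ d_Q`, then `∑_{P ↦ Q} d₀ P ≤ d_Q`.
-/
import Mathlib
import Fermat.Agent.S18lib.Setup.DatumFibre
import Fermat.Agent.S18lib.Norm.Conservation

set_option autoImplicit false

noncomputable section

namespace Fermat.Agent.S18lib.G

open AlgebraicCurve

variable {L : Type*} [Field L] {A : ValuationSubring L}
variable {F : Type*} [Field F] [Algebra L F]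
variable {Fk : Type*} [Field Fk] [Algebra (IsLocalRing.ResidueField A) Fk]
variable [HasPrincipalDivisors L F] [HasPrincipalDivisors (IsLocalRing.ResidueField A) Fk]

local notation "k" => IsLocalRing.ResidueField A

/-- **Unbranched places**: nothing of `d₀` lies over `Q`. -/
theorem mapDomain_eq_zero_of_unbranched (D : RedDatum A F Fk)
    (hdegpos : ∀ Q : Place k Fk, 0 < Q.deg) {y : F} (hyO : y ∈ D.O)
    (hnc : ∀ c : k, D.redF y ≠ algebraMap k Fk c)
    (hdeg : Divisor.degree (polesOf (K := L) y) = Divisor.degree (polesOf (K := k) (D.redF y)))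
    (S : Finset A) (d0 : Place L F →₀ ℕ)
    (hsupp : ∀ P, d0 P ≠ 0 → P.ord y < 0 ∨ ∃ a ∈ S, 0 < P.ord (y - algebraMap L F ((a : A) : L)))
    (Q : Place k Fk) (hQ1 : 0 ≤ Q.ord (D.redF y))
    (hQ2 : ∀ a ∈ S, ¬ 0 < Q.ord (D.redF y - algebraMap k Fk (IsLocalRing.residue A a))) :
    Finsupp.mapDomain D.r d0 Q = 0 := by
  classical
  have hy : D.redF y ≠ 0 := by
    have := hnc 0
    rwa [map_zero] at this
  rw [Norm.mapDomain_nat_apply_eq_sum]
  refine Finset.sum_eq_zero fun P hP => ?_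
  rw [Finsupp.mem_support_iff] at hP
  split_ifs with hr
  · exfalso
    rcases hsupp P hP with hpole | ⟨a, haS, hzero⟩
    · have := D.ord_r_neg_of_ord_neg hdegpos hy hdeg hpole
      rw [hr] at this
      omega
    · have := D.ord_r_pos_of_ord_pos hdegpos hyO hnc hdeg a hzero
      rw [hr] at this
      exact hQ2 a haS this
  · rfl

/-- **Poles**: `∑_{P ↦ Q} (e_P - 1) ≤ e_Q - 1`. -/
theorem mapDomain_le_of_pole (D : RedDatum A F Fk)
    (hdegpos : ∀ Q : Place k Fk, 0 < Q.deg) {y : F} (hyO : y ∈ D.O)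
    (hnc : ∀ c : k, D.redF y ≠ algebraMap k Fk c)
    (hdeg : Divisor.degree (polesOf (K := L) y) = Divisor.degree (polesOf (K := k) (D.redF y)))
    (S : Finset A) (d0 : Place L F →₀ ℕ)
    (hsupp : ∀ P, d0 P ≠ 0 → P.ord y < 0 ∨ ∃ a ∈ S, 0 < P.ord (y - algebraMap L F ((a : A) : L)))
    (hd0 : ∀ P, P.ord y < 0 → (d0 P : ℤ) ≤ -P.ord y - 1)
    (Q : Place k Fk) (hQ : Q.ord (D.redF y) < 0) (dQ : ℕ)
    (hdQ : -Q.ord (D.redF y) - 1 ≤ (dQ : ℤ)) :
    Finsupp.mapDomain D.r d0 Q ≤ dQ := by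
  classical
  have hy : D.redF y ≠ 0 := by
    have := hnc 0
    rwa [map_zero] at this
  -- the poles over `Q`
  set T := (polesOf (K := L) y).support.filter (fun P => D.r P = Q) with hT
  have hmemT : ∀ P, P ∈ T ↔ P.ord y < 0 ∧ D.r P = Q := by
    intro P
    rw [hT, Finset.mem_filter, Finsupp.mem_support_iff, polesOf_apply]
    constructor
    · rintro ⟨h1, h2⟩
      refine ⟨?_, h2⟩
      by_contra hge
      push Not at hge
      exact h1 (max_eq_right (by omega))
    · rintro ⟨h1, h2⟩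
      refine ⟨?_, h2⟩
      rw [max_eq_left (by omega)]
      omega
  have hsum : ∑ P ∈ T, (-P.ord y) = -Q.ord (D.redF y) := by
    have h := D.neg_ord_eq_sum hdegpos hy hdeg Q
    rw [max_eq_left (by omega), ← Finset.sum_filter] at h
    rw [h]
    refine Finset.sum_congr rfl fun P hP => ?_
    have := ((hmemT P).mp hP).1
    rw [max_eq_left (by omega)]
  have hTne : T.Nonempty := by
    obtain ⟨P, hPQ, hPneg⟩ := D.exists_ord_neg_of_ord_neg hdegpos hy hdeg hQ
    exact ⟨P, (hmemT P).mpr ⟨hPneg, hPQ⟩⟩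
  -- the part of `d₀` over `Q`
  set T' := d0.support.filter (fun P => D.r P = Q) with hT'
  have hsub : T' ⊆ T := by
    intro P hP
    rw [hT', Finset.mem_filter, Finsupp.mem_support_iff] at hP
    rw [hmemT]
    refine ⟨?_, hP.2⟩
    rcases hsupp P hP.1 with hpole | ⟨a, _, hzero⟩
    · exact hpole
    · exfalso
      have h1 := D.ord_r_pos_of_ord_pos hdegpos hyO hnc hdeg a hzero
      rw [hP.2, ord_sub_algebraMap_of_neg Q hQ] at h1
      omega
  have key : ((Finsupp.mapDomain D.r d0 Q : ℕ) : ℤ) ≤ -Q.ord (D.redF y) - 1 := by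
    rw [Norm.mapDomain_nat_apply_eq_sum, ← Finset.sum_filter]
    push_cast
    calc ∑ P ∈ T', ((d0 P : ℕ) : ℤ) ≤ ∑ P ∈ T', (-P.ord y - 1) := by
          refine Finset.sum_le_sum fun P hP => ?_
          exact hd0 P ((hmemT P).mp (hsub hP)).1
      _ ≤ ∑ P ∈ T, (-P.ord y - 1) := by
          refine Finset.sum_le_sum_of_subset_of_nonneg hsub fun P hP _ => ?_
          have := ((hmemT P).mp hP).1
          omega
      _ = -Q.ord (D.redF y) - (T.card : ℤ) := by
          rw [Finset.sum_sub_distrib, hsum, Finset.sum_const, nsmul_eq_mul, mul_one]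
      _ ≤ -Q.ord (D.redF y) - 1 := by
          have : (1 : ℤ) ≤ (T.card : ℤ) := by exact_mod_cast hTne.card_pos
          omega
  have : ((Finsupp.mapDomain D.r d0 Q : ℕ) : ℤ) ≤ (dQ : ℤ) := key.trans hdQ
  exact_mod_cast this

end Fermat.Agent.S18lib.G
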